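import Fermat.Agent.H57.S58.TorsionBasis
import Fermat.Agent.H51.S58.Interfaces2
import Fermat.Agent.H10.S58.ECard
import Fermat.Agent.H55.NodeComponent
import Fermat.Agent.H73.AddValBridge

/-!
# S58-E0DIV (helper57, P-S58 row 1102): points of exact order `p ^ k` with nonsingular reduction

`nodeExactOrder_of_reduce : NodeReduceStatement → NodeExactOrderStatement`.

`NodeReduceStatement` (helper23, part [A]) is the reduction to a node model
`W' : y² + a₁ x y = x³ + a₂ x² + a₄ x` over `ℚ̄` (translation by a `2`-torsion point reducing to the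
node).  On `W'` the clipped valuation `α` of `Fermat.Agent.H55.NodeComponent` satisfies the
parallelogram law; a basis of `E[p ^ k]` (`Fermat.Agent.H10.S58.ec_card_torsionBy`,
`ec_exists_nsmul_eq`) minimising `α A + α B` contains a point with `α = 0`
(`Fermat.Agent.H57.S58.euclid_min`).
-/

set_option autoImplicit false
set_option linter.style.haveILetI false

open WeierstrassCurve WeierstrassCurve.Affine

namespace Fermat.Agent.H57.S58

open Fermat.Agent.H51.S58

/-- **Reduction to the node model** (part [A], helper23): at a prime `q` of multiplicative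
reduction and a place `A` over `q` there is a node model `W'` over `ℚ̄` and a group isomorphism
`e : E(ℚ̄) ≃ W'(ℚ̄)` such that the points which do not reduce to the node `(0, 0)` of `W'` have
nonsingular reduction on `W`. -/
def NodeReduceStatement : Prop :=
  ∀ (W : WeierstrassCurve ℤ), W.Δ ≠ 0 → ∀ (q : ℕ), q.Prime → (q : ℤ) ∣ W.Δ → ¬ (q : ℤ) ∣ W.c₄ →
    ∀ A : ValuationSubring (AlgebraicClosure ℚ), A.LiesOverPrime q →
      ∃ (W' : WeierstrassCurve (AlgebraicClosure ℚ)) (e : EPt W ≃+ W'.toAffine.Point),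
        W'.a₃ = 0 ∧ W'.a₆ = 0 ∧ W'.a₁ ∈ A ∧ W'.a₂ ∈ A ∧ W'.a₄ ∈ A.nonunits ∧ W'.a₄ ≠ 0 ∧
        W'.b₂ ∉ A.nonunits ∧
        ∀ P : EPt W, (e P = 0 ∨ ∃ (x y : AlgebraicClosure ℚ) (h : W'.toAffine.Nonsingular x y),
          e P = Point.some x y h ∧ x ∉ A.nonunits) → GoodRedAt W A P

section bridge

variable {L : Type*} [Field L] (A : ValuationSubring L) (w : Fermat.Agent.H71.AddVal L)
  (hw : ∀ x y : L, x ≠ 0 → y ≠ 0 → (w.w x ≤ w.w y ↔ A.valuation y ≤ A.valuation x))

include hw

/-- Elements of `A` have nonnegative valuation. -/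
theorem addVal_nonneg_of_mem {x : L} (hx0 : x ≠ 0) (hx : x ∈ A) : 0 ≤ w.w x := by
  have h1 : A.valuation x ≤ A.valuation 1 := by
    rw [map_one]
    exact (A.valuation_le_one_iff x).mpr hx
  have := (hw 1 x one_ne_zero hx0).mpr h1
  rwa [w.w_one] at this

/-- Nonzero nonunits have positive valuation. -/
theorem addVal_pos_of_mem_nonunits {x : L} (hx0 : x ≠ 0) (hx : x ∈ A.nonunits) :
    0 < w.w x := by
  by_contra hcon
  have h1 : w.w x ≤ w.w 1 := by rw [w.w_one]; exact not_lt.mp hcon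
  have h2 := (hw x 1 hx0 one_ne_zero).mp h1
  rw [map_one] at h2
  have h3 : A.valuation x < 1 := (ValuationSubring.mem_nonunits_iff A).mp hx
  exact absurd h2 (not_le.mpr h3)

/-- Elements with nonpositive valuation are not in the maximal ideal. -/
theorem not_mem_nonunits_of_addVal_nonpos {x : L} (hx0 : x ≠ 0) (hx : w.w x ≤ 0) :
    x ∉ A.nonunits := by
  intro hmem
  have := addVal_pos_of_mem_nonunits A w hw hx0 hmem
  linarith

/-- Units of `A` have valuation `0`. -/
theorem addVal_eq_zero_of_unit {x : L} (hx : x ∈ A) (hx' : x ∉ A.nonunits) : w.w x = 0 := by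
  have hx0 : x ≠ 0 := by
    rintro rfl
    exact hx' (by rw [ValuationSubring.mem_nonunits_iff]; simp)
  apply le_antisymm
  · have h1 : A.valuation 1 ≤ A.valuation x := by
      rw [map_one]
      by_contra hcon
      exact hx' ((ValuationSubring.mem_nonunits_iff A).mpr (not_le.mp hcon))
    have := (hw x 1 hx0 one_ne_zero).mpr h1
    rwa [w.w_one] at this
  · exact addVal_nonneg_of_mem A w hw hx0 hx

end bridge

/-- The set form of the finiteness of `E[n]`. -/
theorem finite_nsmul_eq_zero (W : WeierstrassCurve ℤ) (hΔ : W.Δ ≠ 0) {n : ℕ} (hn : 1 ≤ n) :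
    {P : EPt W | n • P = 0}.Finite := by
  have hcard := Fermat.Agent.H10.S58.ec_card_torsionBy W hΔ hn
  have hfin : Finite (Submodule.torsionBy ℤ (EPt W) (n : ℤ)) :=
    Nat.finite_of_card_ne_zero (by rw [hcard]; exact pow_ne_zero 2 (by omega))
  have hset : {P : EPt W | n • P = 0} =
      ((Submodule.torsionBy ℤ (EPt W) (n : ℤ) : Submodule ℤ (EPt W)) : Set (EPt W)) := by
    ext T
    simp only [SetLike.mem_coe, Submodule.mem_torsionBy_iff, Set.mem_ofPred_eq, natCast_zsmul]
  rw [hset]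
  exact Set.toFinite _

/-- **E0-DIV** from the reduction to the node model. -/
theorem nodeExactOrder_of_reduce (hred : NodeReduceStatement) : NodeExactOrderStatement := by
  classical
  intro W hΔ q hq hqΔ hc4 p hp _hp2 _hpq A hA k
  rcases Nat.eq_zero_or_pos k with hk | hk
  · subst hk
    refine ⟨0, ⟨by simp, fun m _ => by simp⟩, ?_⟩
    exact trivial
  obtain ⟨j, rfl⟩ : ∃ j, k = j + 1 := ⟨k - 1, by omega⟩
  obtain ⟨W', e, ha₃, ha₆, ha₁, ha₂, ha₄, ha₄0, hb₂, hgood⟩ := hred W hΔ q hq hqΔ hc4 A hA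
  obtain ⟨w, hw⟩ := Fermat.Agent.H73.exists_addVal A hq hA
  -- the node data
  have hW' : Fermat.Agent.H55.IsNodeModel W' := ⟨ha₃, ha₆⟩
  have hb₂A : W'.b₂ ∈ A := by
    have : W'.b₂ = W'.a₁ ^ 2 + 4 * W'.a₂ := by simp only [WeierstrassCurve.b₂]
    rw [this]
    have h4 : (4 : AlgebraicClosure ℚ) ∈ A := by
      have : ((4 : ℕ) : AlgebraicClosure ℚ) ∈ A := natCast_mem A 4
      exact_mod_cast this
    exact A.add_mem _ _ (pow_mem ha₁ 2) (A.mul_mem _ _ h4 ha₂)
  have hb₂0 : W'.b₂ ≠ 0 := by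
    intro h0
    exact hb₂ (by rw [h0, ValuationSubring.mem_nonunits_iff]; simp)
  have hd : Fermat.Agent.H55.NodeDataG w W'.b₂ W'.a₄ := by
    refine ⟨Or.inr ?_, hb₂0, addVal_eq_zero_of_unit A w hw hb₂A hb₂, ha₄0,
      addVal_pos_of_mem_nonunits A w hw ha₄0 ha₄⟩
    have h2 : (2 : AlgebraicClosure ℚ) ∈ A := by
      have : ((2 : ℕ) : AlgebraicClosure ℚ) ∈ A := natCast_mem A 2
      exact_mod_cast this
    exact addVal_nonneg_of_mem A w hw two_ne_zero h2
  -- a basis of `E[p ^ (j + 1)]`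
  obtain ⟨A₀, B₀, hAB⟩ := exists_isTorsionBasis_pow (E := EPt W) hp
    (Fermat.Agent.H10.S58.ec_card_torsionBy W hΔ hp.one_le) j
    (fun Q => Fermat.Agent.H10.S58.ec_exists_nsmul_eq W hΔ (Nat.one_le_pow _ _ hp.pos) Q)
  -- Euclid
  obtain ⟨P, hP0, hPdvd, hPα⟩ := euclid_min (E := EPt W)
    (fun P => Fermat.Agent.H71.alpha w W' (e P))
    (fun P => Fermat.Agent.H55.alphaG_nonneg hd (e P))
    (fun P Q => by
      have := Fermat.Agent.H55.alphaG_add_sub hW' hd (e P) (e Q)
      simp only [map_add, map_sub]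
      rcases this with ⟨_, h⟩ | ⟨h, _⟩
      · exact Or.inr h
      · exact Or.inl h)
    (finite_nsmul_eq_zero W hΔ (Nat.one_le_pow _ _ hp.pos)) hAB
  refine ⟨P, ⟨hP0, hPdvd⟩, hgood P ?_⟩
  -- `α = 0` means: not reducing to the node
  generalize e P = R at hPα
  cases R with
  | zero => exact Or.inl rfl
  | some x y h =>
    refine Or.inr ⟨x, y, h, rfl, ?_⟩
    rw [Fermat.Agent.H71.alpha_some] at hPα
    unfold Fermat.Agent.H71.alphaX at hPα
    have hη := hd.w_b
    split_ifs at hPα with hx0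
    · linarith
    · apply not_mem_nonunits_of_addVal_nonpos A w hw hx0
      have h1 : min (w.w x) (w.w W'.a₄) ≤ 0 := by
        have := le_max_right 0 (min (w.w x) (w.w W'.a₄))
        linarith
      rcases min_le_iff.mp h1 with h2 | h2
      · exact h2
      · linarith

end Fermat.Agent.H57.S58
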