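import Fermat.Agent.H57.S58.NodeExact
import Fermat.Agent.H26.KernelReduction
import Fermat.Agent.H4.IntVal

/-!
# S58-E0DIV (helper57, P-S58 row 1102), corrected reduction statement

`NodeReduceStatement` of `Fermat.Agent.H57.S58.NodeExact` is too strong (its clause also covers
the non-integral points, which never satisfy `GoodRedAt`).  Here the clause is restricted to the
points of the node model whose `x`-coordinate is a UNIT of `A`:

`nodeExactOrder_of_reduce2 : NodeReduceStatement2 → NodeExactOrderStatement`.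

The integrality of the point produced by the Euclid step comes from
`Fermat.Agent.H26.eq_zero_of_nsmul_eq_zero` (the kernel of reduction has no torsion of order
prime to the residue characteristic).
-/

set_option autoImplicit false
set_option linter.style.haveILetI false

open WeierstrassCurve WeierstrassCurve.Affine

namespace Fermat.Agent.H57.S58

open Fermat.Agent.H51.S58

/-- **Reduction to the node model** (part [A], helper23), corrected: at a prime `q` of
multiplicative reduction and a place `A` over `q` there is a node model `W'` over `ℚ̄` and a group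
isomorphism `e : E(ℚ̄) ≃ W'(ℚ̄)` such that the points of `W'` whose `x`-coordinate is a unit of
`A` have nonsingular reduction on `W`. -/
def NodeReduceStatement2 : Prop :=
  ∀ (W : WeierstrassCurve ℤ), W.Δ ≠ 0 → ∀ (q : ℕ), q.Prime → (q : ℤ) ∣ W.Δ → ¬ (q : ℤ) ∣ W.c₄ →
    ∀ A : ValuationSubring (AlgebraicClosure ℚ), A.LiesOverPrime q →
      ∃ (W' : WeierstrassCurve (AlgebraicClosure ℚ)) (e : EPt W ≃+ W'.toAffine.Point),
        W'.a₃ = 0 ∧ W'.a₆ = 0 ∧ W'.a₁ ∈ A ∧ W'.a₂ ∈ A ∧ W'.a₄ ∈ A.nonunits ∧ W'.a₄ ≠ 0 ∧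
        W'.b₂ ∉ A.nonunits ∧
        ∀ P : EPt W, (e P = 0 ∨ ∃ (x y : AlgebraicClosure ℚ) (h : W'.toAffine.Nonsingular x y),
          e P = Point.some x y h ∧ x ∈ A ∧ x ∉ A.nonunits) → GoodRedAt W A P

/-- A natural number prime to `q` is a unit at a place over `q`. -/
theorem valuation_natCast_eq_one {L : Type*} [Field L] (A : ValuationSubring L) {q : ℕ}
    (hq : q.Prime) (hA : A.LiesOverPrime q) {n : ℕ} (hn : ¬ q ∣ n) :
    A.valuation ((n : ℕ) : L) = 1 := by
  have hq1 : A.valuation ((q : ℕ) : L) < 1 := (ValuationSubring.mem_nonunits_iff A).mp hA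
  have h := Fermat.Agent.H4.val_intCast_eq_one_of_not_dvd A hq hq1 (n := (n : ℤ))
    (fun hdvd => hn (Int.natCast_dvd_natCast.mp hdvd))
  simpa using h

/-- **E0-DIV** from the (corrected) reduction to the node model. -/
theorem nodeExactOrder_of_reduce2 (hred : NodeReduceStatement2) : NodeExactOrderStatement := by
  classical
  intro W hΔ q hq hqΔ hc4 p hp _hp2 hpq A hA k
  rcases Nat.eq_zero_or_pos k with hk | hk
  · subst hk
    refine ⟨0, ⟨by simp, fun m _ => by simp⟩, ?_⟩
    exact trivial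
  obtain ⟨j, rfl⟩ : ∃ j, k = j + 1 := ⟨k - 1, by omega⟩
  obtain ⟨W', e, ha₃, ha₆, ha₁, ha₂, ha₄, ha₄0, hb₂, hgood⟩ := hred W hΔ q hq hqΔ hc4 A hA
  obtain ⟨w, hw⟩ := Fermat.Agent.H73.exists_addVal A hq hA
  -- the node data
  have hW' : Fermat.Agent.H55.IsNodeModel W' := ⟨ha₃, ha₆⟩
  have hb₂A : W'.b₂ ∈ A := by
    have : W'.b₂ = W'.a₁ ^ 2 + 4 * W'.a₂ := by simp only [WeierstrassCurve.b₂]
    rw [this]
    have h4 : (4 : AlgebraicClosure ℚ) ∈ A := by
      have : ((4 : ℕ) : AlgebraicClosure ℚ) ∈ A := natCast_mem A 4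
      exact_mod_cast this
    exact A.add_mem _ _ (pow_mem ha₁ 2) (A.mul_mem _ _ h4 ha₂)
  have hb₂0 : W'.b₂ ≠ 0 := by
    intro h0
    exact hb₂ (by rw [h0, ValuationSubring.mem_nonunits_iff]; simp)
  have hd : Fermat.Agent.H55.NodeDataG w W'.b₂ W'.a₄ := by
    refine ⟨Or.inr ?_, hb₂0, addVal_eq_zero_of_unit A w hw hb₂A hb₂, ha₄0,
      addVal_pos_of_mem_nonunits A w hw ha₄0 ha₄⟩
    have h2 : (2 : AlgebraicClosure ℚ) ∈ A := by
      have : ((2 : ℕ) : AlgebraicClosure ℚ) ∈ A := natCast_mem A 2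
      exact_mod_cast this
    exact addVal_nonneg_of_mem A w hw two_ne_zero h2
  have hInt : Fermat.Agent.H26.IsIntegralAt A.valuation W'.toAffine :=
    Fermat.Agent.H26.isIntegralAt_of_mem A ha₁ ha₂ (by rw [ha₃]; exact A.zero_mem)
      (A.nonunits_subset ha₄) (by rw [ha₆]; exact A.zero_mem)
  -- `p ^ (j + 1)` is a unit of `A`
  have hpu : A.valuation (((p ^ (j + 1) : ℕ) : ℕ) : AlgebraicClosure ℚ) = 1 := by
    apply valuation_natCast_eq_one A hq hA
    intro hdvd
    have := (Nat.prime_dvd_prime_iff_eq hq hp).mp (hq.dvd_of_dvd_pow hdvd)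
    exact hpq this.symm
  -- a basis of `E[p ^ (j + 1)]`
  obtain ⟨A₀, B₀, hAB⟩ := exists_isTorsionBasis_pow (E := EPt W) hp
    (Fermat.Agent.H10.S58.ec_card_torsionBy W hΔ hp.one_le) j
    (fun Q => Fermat.Agent.H10.S58.ec_exists_nsmul_eq W hΔ (Nat.one_le_pow _ _ hp.pos) Q)
  -- Euclid
  obtain ⟨P, hP0, hPdvd, hPα⟩ := euclid_min (E := EPt W)
    (fun P => Fermat.Agent.H71.alpha w W' (e P))
    (fun P => Fermat.Agent.H55.alphaG_nonneg hd (e P))
    (fun P Q => by
      have := Fermat.Agent.H55.alphaG_add_sub hW' hd (e P) (e Q)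
      simp only [map_add, map_sub]
      rcases this with ⟨_, h⟩ | ⟨h, _⟩
      · exact Or.inr h
      · exact Or.inl h)
    (finite_nsmul_eq_zero W hΔ (Nat.one_le_pow _ _ hp.pos)) hAB
  refine ⟨P, ⟨hP0, hPdvd⟩, hgood P ?_⟩
  -- `α = 0` means: not reducing to the node; torsion prime to `q` means: integral
  have heP0 : (p ^ (j + 1)) • e P = 0 := by rw [← map_nsmul, hP0, map_zero]
  generalize e P = R at hPα heP0
  cases R with
  | zero => exact Or.inl rfl
  | some x y h =>
    refine Or.inr ⟨x, y, h, rfl, ?_, ?_⟩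
    · by_contra hxA
      have hK : Fermat.Agent.H26.InKer A.valuation (Point.some x y h) :=
        (Fermat.Agent.H26.one_lt_valuation_iff A).mpr hxA
      have h0 := Fermat.Agent.H26.eq_zero_of_nsmul_eq_zero hInt hK hpu heP0
      cases h0
    · rw [Fermat.Agent.H71.alpha_some] at hPα
      unfold Fermat.Agent.H71.alphaX at hPα
      have hη := hd.w_b
      split_ifs at hPα with hx0
      · linarith
      · apply not_mem_nonunits_of_addVal_nonpos A w hw hx0
        have h1 : min (w.w x) (w.w W'.a₄) ≤ 0 := by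
          have := le_max_right 0 (min (w.w x) (w.w W'.a₄))
          linarith
        rcases min_le_iff.mp h1 with h2 | h2
        · exact h2
        · linarith

end Fermat.Agent.H57.S58
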