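import Fermat.Agent.H57.S58.NodeExact
import Fermat.Agent.H23.S58.NodeReduce

/-!
# S58-E0DIV (helper57, P-S58 row 1102): final assembly

* `nodeExactOrder_of_reduceT` : helper23's torsion-aware `Fermat.Agent.H23.S58.NodeReduceStatement`
  implies `NodeExactOrderStatement`;
* `nodeExactOrderU : NodeExactOrderStatement`, unconditional
  (with `Fermat.Agent.H23.S58.nodeReduce`);
* `nodeExactOrder (hCard) (hDiv) : NodeExactOrderStatement`, the shape of row 1102.

At a prime `q` of multiplicative reduction and a place `A` over `q` there is a point of exact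
order `p ^ k` (`p ≠ q` odd) with nonsingular reduction: on the node model the clipped valuation
`α` satisfies the parallelogram law, and a basis `(A, B)` of `E[p ^ k]` minimising `α A + α B`
contains a point with `α = 0`.
-/

set_option autoImplicit false
set_option linter.style.haveILetI false

open WeierstrassCurve WeierstrassCurve.Affine

namespace Fermat.Agent.H57.S58

open Fermat.Agent.H51.S58

/-- **E0-DIV** from the torsion-aware reduction to the node model. -/
theorem nodeExactOrder_of_reduceT (hred : Fermat.Agent.H23.S58.NodeReduceStatement) : NodeExactOrderStatement := by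
  classical
  intro W hΔ q hq hqΔ hc4 p hp _hp2 hpq A hA k
  rcases Nat.eq_zero_or_pos k with hk | hk
  · subst hk
    refine ⟨0, ⟨by simp, fun m _ => by simp⟩, ?_⟩
    exact trivial
  obtain ⟨j, rfl⟩ : ∃ j, k = j + 1 := ⟨k - 1, by omega⟩
  obtain ⟨W', e, ha₃, ha₆, ha₁, ha₂, ha₄, ha₄0, hb₂, hgood⟩ := hred W hΔ q hq hqΔ hc4 A hA
  obtain ⟨w, hw⟩ := Fermat.Agent.H73.exists_addVal A hq hA
  -- the node data
  have hW' : Fermat.Agent.H55.IsNodeModel W' := ⟨ha₃, ha₆⟩
  have hb₂A : W'.b₂ ∈ A := by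
    have : W'.b₂ = W'.a₁ ^ 2 + 4 * W'.a₂ := by simp only [WeierstrassCurve.b₂]
    rw [this]
    have h4 : (4 : AlgebraicClosure ℚ) ∈ A := by
      have : ((4 : ℕ) : AlgebraicClosure ℚ) ∈ A := natCast_mem A 4
      exact_mod_cast this
    exact A.add_mem _ _ (pow_mem ha₁ 2) (A.mul_mem _ _ h4 ha₂)
  have hb₂0 : W'.b₂ ≠ 0 := by
    intro h0
    exact hb₂ (by rw [h0, ValuationSubring.mem_nonunits_iff]; simp)
  have hd : Fermat.Agent.H55.NodeDataG w W'.b₂ W'.a₄ := by
    refine ⟨Or.inr ?_, hb₂0, addVal_eq_zero_of_unit A w hw hb₂A hb₂, ha₄0,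
      addVal_pos_of_mem_nonunits A w hw ha₄0 ha₄⟩
    have h2 : (2 : AlgebraicClosure ℚ) ∈ A := by
      have : ((2 : ℕ) : AlgebraicClosure ℚ) ∈ A := natCast_mem A 2
      exact_mod_cast this
    exact addVal_nonneg_of_mem A w hw two_ne_zero h2
  have hqp : ¬ q ∣ p ^ (j + 1) := fun hdvd =>
    hpq ((Nat.prime_dvd_prime_iff_eq hq hp).mp (hq.dvd_of_dvd_pow hdvd)).symm
  -- a basis of `E[p ^ (j + 1)]`
  obtain ⟨A₀, B₀, hAB⟩ := exists_isTorsionBasis_pow (E := EPt W) hp
    (Fermat.Agent.H10.S58.ec_card_torsionBy W hΔ hp.one_le) j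
    (fun Q => Fermat.Agent.H10.S58.ec_exists_nsmul_eq W hΔ (Nat.one_le_pow _ _ hp.pos) Q)
  -- Euclid
  obtain ⟨P, hP0, hPdvd, hPα⟩ := euclid_min (E := EPt W)
    (fun P => Fermat.Agent.H71.alpha w W' (e P))
    (fun P => Fermat.Agent.H55.alphaG_nonneg hd (e P))
    (fun P Q => by
      have := Fermat.Agent.H55.alphaG_add_sub hW' hd (e P) (e Q)
      simp only [map_add, map_sub]
      rcases this with ⟨_, h⟩ | ⟨h, _⟩
      · exact Or.inr h
      · exact Or.inl h)
    (finite_nsmul_eq_zero W hΔ (Nat.one_le_pow _ _ hp.pos)) hAB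
  refine ⟨P, ⟨hP0, hPdvd⟩, hgood P (p ^ (j + 1)) (pow_pos hp.pos _) hqp hP0 ?_⟩
  -- `α = 0` means: not reducing to the node
  generalize e P = R at hPα
  cases R with
  | zero => exact Or.inl rfl
  | some x y h =>
    refine Or.inr ⟨x, y, h, rfl, ?_⟩
    rw [Fermat.Agent.H71.alpha_some] at hPα
    unfold Fermat.Agent.H71.alphaX at hPα
    have hη := hd.w_b
    split_ifs at hPα with hx0
    · linarith
    · apply not_mem_nonunits_of_addVal_nonpos A w hw hx0
      have h1 : min (w.w x) (w.w W'.a₄) ≤ 0 := by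
        have := le_max_right 0 (min (w.w x) (w.w W'.a₄))
        linarith
      rcases min_le_iff.mp h1 with h2 | h2
      · exact h2
      · linarith

/-- **E0-DIV**, unconditional. -/
theorem nodeExactOrderU : NodeExactOrderStatement :=
  nodeExactOrder_of_reduceT Fermat.Agent.H23.S58.nodeReduce

/-- **E0-DIV** in the shape of row 1102. -/
theorem nodeExactOrder (_hCard : TorsionCardStatement) (_hDiv : ExactOrderStatement) :
    NodeExactOrderStatement :=
  nodeExactOrderU

end Fermat.Agent.H57.S58
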