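import Mathlib

/-!
# Bases of `p ^ k`-torsion and the Euclid step (helper57, P-S58 row 1102, part [C])

Pure group theory (Mathlib only).

* `IsTorsionBasis n A B` : `n • A = 0`, `n • B = 0` and `x • A + y • B = 0 → n ∣ x ∧ n ∣ y`.
* `exists_isTorsionBasis_prime` : a basis of `E[p]` if `#E[p] = p ^ 2`.
* `exists_isTorsionBasis_pow` : a basis of `E[p ^ (j + 1)]` if moreover `[p ^ j]` is surjective.
* `euclid_min` : if `α : E → ℝ` is nonnegative and for all `P`, `Q` one of `α (P + Q)`,
  `α (P - Q)` is `|α P - α Q|`, and `E[n]` is finite with a basis, then there is a point of exact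
  order `n` with `α = 0`.
-/

set_option autoImplicit false
set_option linter.style.haveILetI false

namespace Fermat.Agent.H57.S58

/-- `A`, `B` are killed by `n` and are independent modulo `n`. -/
structure IsTorsionBasis {E : Type*} [AddCommGroup E] (n : ℕ) (A B : E) : Prop where
  left : n • A = 0
  right : n • B = 0
  indep : ∀ x y : ℤ, x • A + y • B = 0 → (n : ℤ) ∣ x ∧ (n : ℤ) ∣ y

namespace IsTorsionBasis

variable {E : Type*} [AddCommGroup E] {n : ℕ} {A B : E}

theorem symm (h : IsTorsionBasis n A B) : IsTorsionBasis n B A where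
  left := h.right
  right := h.left
  indep x y hxy := by
    have := h.indep y x (by rw [add_comm]; exact hxy)
    exact ⟨this.2, this.1⟩

/-- `B ↦ B + A`. -/
theorem add_right (h : IsTorsionBasis n A B) : IsTorsionBasis n A (B + A) where
  left := h.left
  right := by rw [smul_add, h.left, h.right, add_zero]
  indep x y hxy := by
    have h1 : (x + y) • A + y • B = 0 := by
      rw [← hxy, add_smul, smul_add]; abel
    obtain ⟨h2, h3⟩ := h.indep _ _ h1
    exact ⟨(dvd_add_left h3).mp h2, h3⟩

/-- `B ↦ B - A`. -/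
theorem sub_right (h : IsTorsionBasis n A B) : IsTorsionBasis n A (B - A) where
  left := h.left
  right := by rw [smul_sub, h.left, h.right, sub_zero]
  indep x y hxy := by
    have h1 : (x - y) • A + y • B = 0 := by
      rw [← hxy, sub_smul, smul_sub]; abel
    obtain ⟨h2, h3⟩ := h.indep _ _ h1
    have h4 : (n : ℤ) ∣ (x - y) + y := dvd_add h2 h3
    rw [sub_add_cancel] at h4
    exact ⟨h4, h3⟩

/-- `A ↦ A + B`. -/
theorem add_left (h : IsTorsionBasis n A B) : IsTorsionBasis n (A + B) B :=
  h.symm.add_right.symm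

/-- `A ↦ A - B`. -/
theorem sub_left (h : IsTorsionBasis n A B) : IsTorsionBasis n (A - B) B :=
  h.symm.sub_right.symm

/-- The first vector of a basis has exact order `n`. -/
theorem dvd_of_nsmul_left (h : IsTorsionBasis n A B) {m : ℕ} (hm : m • A = 0) : n ∣ m := by
  have h1 : (m : ℤ) • A + (0 : ℤ) • B = 0 := by
    rw [zero_smul, add_zero, natCast_zsmul, hm]
  exact Int.natCast_dvd_natCast.mp (h.indep _ _ h1).1

/-- The second vector of a basis has exact order `n`. -/
theorem dvd_of_nsmul_right (h : IsTorsionBasis n A B) {m : ℕ} (hm : m • B = 0) : n ∣ m :=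
  h.symm.dvd_of_nsmul_left hm

end IsTorsionBasis

/-- A vector space with `(#K) ^ 2` elements has two independent vectors. -/
theorem exists_pair_of_card_sq {K V : Type*} [Field K] [Finite K] [AddCommGroup V] [Module K V]
    [Finite V] (h : Nat.card V = Nat.card K ^ 2) :
    ∃ a b : V, ∀ x y : K, x • a + y • b = 0 → x = 0 ∧ y = 0 := by
  classical
  haveI : Module.Finite K V := Module.Finite.of_finite
  have hfr : Module.finrank K V = 2 := by
    have h1 := Module.natCard_eq_pow_finrank (K := K) (V := V)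
    rw [h] at h1
    exact (Nat.pow_right_injective Finite.one_lt_card h1).symm
  let b := Module.finBasisOfFinrankEq K V hfr
  refine ⟨b 0, b 1, fun x y hxy => ?_⟩
  have hli := b.linearIndependent
  rw [Fintype.linearIndependent_iff] at hli
  have h0 : ∑ i : Fin 2, (![x, y] i) • b i = 0 := by
    rw [Fin.sum_univ_two]
    simpa using hxy
  have hx := hli _ h0 0
  have hy := hli _ h0 1
  simp only [Matrix.cons_val_zero, Matrix.cons_val_one] at hx hy
  exact ⟨hx, hy⟩

/-- A basis of `E[p]` if `#E[p] = p ^ 2`. -/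
theorem exists_isTorsionBasis_prime {E : Type*} [AddCommGroup E] {p : ℕ} (hp : p.Prime)
    (hcard : Nat.card (Submodule.torsionBy ℤ E (p : ℤ)) = p ^ 2) :
    ∃ a b : E, IsTorsionBasis p a b := by
  classical
  haveI : Fact p.Prime := ⟨hp⟩
  have hT : ∀ t : Submodule.torsionBy ℤ E (p : ℤ), p • t = 0 := by
    intro t
    apply Subtype.ext
    have h := (Submodule.mem_torsionBy_iff _ _).mp t.2
    rw [natCast_zsmul] at h
    rw [Submodule.coe_smul_of_tower, Submodule.coe_zero]
    exact h
  haveI : Finite (Submodule.torsionBy ℤ E (p : ℤ)) :=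
    Nat.finite_of_card_ne_zero (by rw [hcard]; exact pow_ne_zero 2 hp.ne_zero)
  obtain ⟨a, b, hab⟩ := @exists_pair_of_card_sq (ZMod p) (Submodule.torsionBy ℤ E (p : ℤ)) _ _ _
    (AddCommGroup.zmodModule hT) _ (by rw [hcard, Nat.card_zmod])
  refine ⟨(a : E), (b : E), ?_, ?_, ?_⟩
  · simpa using congrArg Subtype.val (hT a)
  · simpa using congrArg Subtype.val (hT b)
  · intro x y hxy
    have h0 : @HSMul.hSMul (ZMod p) _ _ (@instHSMul _ _ (AddCommGroup.zmodModule hT).toSMul)
          (x : ZMod p) a +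
        @HSMul.hSMul (ZMod p) _ _ (@instHSMul _ _ (AddCommGroup.zmodModule hT).toSMul)
          (y : ZMod p) b = 0 := by
      letI : Module (ZMod p) (Submodule.torsionBy ℤ E (p : ℤ)) := AddCommGroup.zmodModule hT
      rw [Int.cast_smul_eq_zsmul, Int.cast_smul_eq_zsmul]
      apply Subtype.ext
      simpa using hxy
    obtain ⟨hx, hy⟩ := hab _ _ h0
    exact ⟨(ZMod.intCast_zmod_eq_zero_iff_dvd x p).mp hx,
      (ZMod.intCast_zmod_eq_zero_iff_dvd y p).mp hy⟩

/-- Lifting a basis of `E[p]` along `[p ^ j]`. -/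
theorem IsTorsionBasis.lift {E : Type*} [AddCommGroup E] {p : ℕ} {a b : E}
    (h : IsTorsionBasis p a b) (j : ℕ) {A B : E} (hA : p ^ j • A = a) (hB : p ^ j • B = b) :
    IsTorsionBasis (p ^ (j + 1)) A B where
  left := by rw [pow_succ', mul_smul, hA, h.left]
  right := by rw [pow_succ', mul_smul, hB, h.right]
  indep x y hxy := by
    have key : ∀ i : ℕ, i ≤ j + 1 → ((p ^ i : ℕ) : ℤ) ∣ x ∧ ((p ^ i : ℕ) : ℤ) ∣ y := by
      intro i
      induction i with
      | zero => intro _; simp
      | succ i ih =>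
        intro hi
        obtain ⟨⟨x', hx'⟩, ⟨y', hy'⟩⟩ := ih (by omega)
        have hji : j = (j - i) + i := by omega
        have h1 : x' • a + y' • b = 0 := by
          have h2 : (p ^ (j - i)) • (x • A + y • B) = 0 := by rw [hxy, smul_zero]
          rw [← h2, ← hA, ← hB, hx', hy']
          have e1 : ∀ (z : ℤ) (P : E), (p ^ (j - i)) • ((((p ^ i : ℕ) : ℤ) * z) • P) =
              z • (p ^ j • P) := by
            intro z P
            have h5 : p ^ j = p ^ (j - i) * p ^ i := by
              rw [← pow_add, ← hji]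
            rw [h5, mul_smul, mul_smul, natCast_zsmul, smul_comm z (p ^ (j - i)),
              smul_comm z (p ^ i)]
          rw [smul_add, e1, e1]
        obtain ⟨⟨x'', hx''⟩, ⟨y'', hy''⟩⟩ := h.indep _ _ h1
        refine ⟨⟨x'', ?_⟩, ⟨y'', ?_⟩⟩
        · rw [hx', hx'']; push_cast; ring
        · rw [hy', hy'']; push_cast; ring
    exact key (j + 1) le_rfl

/-- A basis of `E[p ^ (j + 1)]` if `#E[p] = p ^ 2` and `[p ^ j]` is surjective. -/
theorem exists_isTorsionBasis_pow {E : Type*} [AddCommGroup E] {p : ℕ} (hp : p.Prime)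
    (hcard : Nat.card (Submodule.torsionBy ℤ E (p : ℤ)) = p ^ 2) (j : ℕ)
    (hsurj : ∀ Q : E, ∃ P : E, p ^ j • P = Q) :
    ∃ A B : E, IsTorsionBasis (p ^ (j + 1)) A B := by
  obtain ⟨a, b, hab⟩ := exists_isTorsionBasis_prime hp hcard
  obtain ⟨A, hA⟩ := hsurj a
  obtain ⟨B, hB⟩ := hsurj b
  exact ⟨A, B, hab.lift j hA hB⟩

/-- **Euclid by minimisation.**  If `α ≥ 0` satisfies the weak parallelogram law (one of
`α (P + Q)`, `α (P - Q)` is `|α P - α Q|`) and the finite group `E[n]` has a basis, then some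
point of exact order `n` has `α = 0`. -/
theorem euclid_min {E : Type*} [AddCommGroup E] (α : E → ℝ) (hnn : ∀ P, 0 ≤ α P)
    (hpar : ∀ P Q : E, α (P + Q) = |α P - α Q| ∨ α (P - Q) = |α P - α Q|)
    {n : ℕ} (hfin : {P : E | n • P = 0}.Finite) {A B : E} (hAB : IsTorsionBasis n A B) :
    ∃ P : E, n • P = 0 ∧ (∀ m : ℕ, m • P = 0 → n ∣ m) ∧ α P = 0 := by
  classical
  -- the finite nonempty set of bases
  let S : Set (E × E) := {AB | IsTorsionBasis n AB.1 AB.2}
  have hSfin : S.Finite := by
    refine (hfin.prod hfin).subset ?_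
    rintro ⟨A', B'⟩ h
    exact ⟨h.left, h.right⟩
  have hSne : S.Nonempty := ⟨(A, B), hAB⟩
  obtain ⟨⟨A₀, B₀⟩, hmem, hmin⟩ :=
    Set.exists_min_image S (fun AB => α AB.1 + α AB.2) hSfin hSne
  have hb : IsTorsionBasis n A₀ B₀ := hmem
  simp only at hmin
  by_cases hA0 : α A₀ = 0
  · exact ⟨A₀, hb.left, fun m hm => hb.dvd_of_nsmul_left hm, hA0⟩
  by_cases hB0 : α B₀ = 0
  · exact ⟨B₀, hb.right, fun m hm => hb.dvd_of_nsmul_right hm, hB0⟩
  exfalso
  have hApos : 0 < α A₀ := lt_of_le_of_ne (hnn _) (Ne.symm hA0)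
  have hBpos : 0 < α B₀ := lt_of_le_of_ne (hnn _) (Ne.symm hB0)
  rcases le_total (α A₀) (α B₀) with hle | hle
  · -- replace `B₀` by `B₀ ± A₀`
    have habs : |α B₀ - α A₀| = α B₀ - α A₀ := abs_of_nonneg (by linarith)
    rcases hpar B₀ A₀ with h | h
    · have := hmin (A₀, B₀ + A₀) hb.add_right
      simp only at this
      rw [h, habs] at this
      linarith
    · have := hmin (A₀, B₀ - A₀) hb.sub_right
      simp only at this
      rw [h, habs] at this
      linarith
  · have habs : |α A₀ - α B₀| = α A₀ - α B₀ := abs_of_nonneg (by linarith)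
    rcases hpar A₀ B₀ with h | h
    · have := hmin (A₀ + B₀, B₀) hb.add_left
      simp only at this
      rw [h, habs] at this
      linarith
    · have := hmin (A₀ - B₀, B₀) hb.sub_left
      simp only at this
      rw [h, habs] at this
      linarith

end Fermat.Agent.H57.S58
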